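/-
M1 (S44), chapter LVL, helper47: **generic base change for degeneracy maps of the fields `Fbar N`**.

A `ℚ̄`-algebra map `p : Fbar N → Fbar M` is *of type `d`* (`IsDegen d p`) when it acts on
`q`-expansions by `q ↦ q^d`.  Examples: `levelIncl h` and `heckeAlphaBar` (type `1`),
`heckeBetaBar Qb N ℓ` (type `ℓ`), compositions (types multiply).

* `finiteAlong_of_isGen`: every `K`-algebra map between function fields with a transcendental
  generator is finite; hence every `p : Fbar N →ₐ Fbar M` is finite, integral, satisfies the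
  fundamental identity and the norm formula (`finiteAlong_bar`, `isIntegral_bar`,
  `fundamentalIdentityAlong_bar`, `normFormulaAlong_bar`): NO side hypotheses below.
* `pull p : JZero N →+ JZero M`, `push p : JZero M →+ JZero N` for every such `p`;
  `pull_comp`, `push_comp`, `push_pull` (`= deg`), and `heckeOperatorAlong_eq_push_pull`
  (`T_ℓ = α_* β^*`, for every `ℓ`).
* generation: `Fbar (M ℓ) = α(Fbar M)(j(q^{dℓ}))` (`adjoin_alpha_jdF_eq_top`, cusp `0`) and
  `Fbar (M ℓ) = β(Fbar M)(j(q^d))` (`adjoin_beta_jdF_eq_top`, cusp `∞`) for `d ∣ M`, `ℓ ∤ M` prime.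
* **base change** (`ℓ` prime, `ℓ ∤ N`, `ℓ ∤ M`, `d ∣ M`, `p`, `p'` of type `d` at levels `N → M`,
  `N ℓ → M ℓ`): `p^* α_* = α_* p'^*` and `p^* β_* = β_* p'^*` on divisors
  (`pullback_pushforward_alpha/beta`) and on `J₀` (`pull_push_alpha/beta`), and
  `p^* T_ℓ = T_ℓ p^*` (`pull_heckeOperatorAlong`).
-/
import Mathlib
import Fermat.Agent.ES.HECKE.LevelTop20
import Fermat.Agent.ES.HECKE.FundId12
import Fermat.Agent.ES.HECKE.NormFormula15
import Fermat.Agent.ES.N35.PushO12
import Fermat.Agent.M1.Lvl.PushPull47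

set_option autoImplicit false
set_option synthInstance.maxHeartbeats 400000
set_option linter.unusedSectionVars false
set_option linter.style.haveILetI false

open ModularCurve AlgebraicCurve IntermediateField
open scoped MatrixGroups

noncomputable section

namespace Fermat.Agent.M1.Lvl.GenBC47

open Fermat.Agent.X0 Fermat.Agent.X0.FF
open Fermat.Agent.RED.BASE.Interface12 Fermat.Agent.RED.LVL.FrickeExp19
open Fermat.Agent.ES.HECKE.LevelPullback12 Fermat.Agent.ES.HECKE.LevelCompatPic12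
open Fermat.Agent.ES.HECKE Fermat.Agent.ES.N35.PushO12 Fermat.Agent.RED.TOP

local notation "Qb" => AlgebraicClosure ℚ

/-! ### Every map of function fields is finite -/

section Finite

variable {K F F' : Type*} [Field K] [Field F] [Field F'] [Algebra K F] [Algebra K F']

/-- A `K`-algebra map between two function fields (each with a transcendental generator) is
finite. -/
theorem finiteAlong_of_isGen (φ : F →ₐ[K] F') {x : F} (hx : IsGen K x) {x' : F'}
    (hx' : IsGen K x') : FiniteAlong K φ := by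
  have hy : Transcendental K (φ x) := fun h =>
    hx.transcendental ((isAlgebraic_algHom_iff φ φ.toRingHom.injective).mp h)
  have hgen : IsGen K (φ x) := hx'.of_transcendental hy
  haveI : FiniteDimensional K⟮φ x⟯ F' := hgen.finite
  letI := algebraAlong φ
  show Module.Finite F F'
  obtain ⟨S, hS⟩ := (Module.finite_def (R := K⟮φ x⟯) (M := F')).mp inferInstance
  refine ⟨⟨S, ?_⟩⟩
  rw [eq_top_iff]
  rintro z -
  have hz : z ∈ Submodule.span K⟮φ x⟯ (S : Set F') := by rw [hS]; trivial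
  induction hz using Submodule.span_induction with
  | mem w hw => exact Submodule.subset_span hw
  | zero => exact Submodule.zero_mem _
  | add u v _ _ hu hv => exact Submodule.add_mem _ hu hv
  | smul c w _ hw =>
    have hc : (c : F') ∈ (K⟮x⟯).map φ := by
      rw [IntermediateField.adjoin_map, Set.image_singleton]
      exact c.2
    obtain ⟨a, -, ha⟩ := hc
    have hcw : c • w = a • w := by
      show (c : F') * w = φ a * w
      exact congrArg (fun t => t * w) ha.symm
    rw [hcw]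
    exact Submodule.smul_mem _ a hw

end Finite

/-! ### The automatic side conditions for maps `Fbar N → Fbar M` -/

section Auto

variable {N M : ℕ} [NeZero N] [NeZero M]

/-- principal divisors on every `Fbar M` (a `Prop`-class: all instances agree). -/
instance instHPD (M : ℕ) [NeZero M] : HasPrincipalDivisors Qb (modularFunctionFieldBar M) :=
  FbarFacts20.hasPrincipalDivisors_bar M

theorem finiteAlong_bar (p : modularFunctionFieldBar N →ₐ[Qb] modularFunctionFieldBar M) :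
    FiniteAlong Qb p :=
  finiteAlong_of_isGen p (FbarFacts20.isGen_j N) (FbarFacts20.isGen_j M)

theorem isIntegral_bar (p : modularFunctionFieldBar N →ₐ[Qb] modularFunctionFieldBar M) :
    p.toRingHom.IsIntegral :=
  AlongDegree25.isIntegral_of_finiteAlong p (finiteAlong_bar p)

theorem fundamentalIdentityAlong_bar
    (p : modularFunctionFieldBar N →ₐ[Qb] modularFunctionFieldBar M) :
    FundamentalIdentityAlong Qb p (isIntegral_bar p) :=
  FundId12.fundamentalIdentityAlong p (isIntegral_bar p) (finiteAlong_bar p)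
    (FbarFacts20.isGen_j N)

theorem normFormulaAlong_bar (p : modularFunctionFieldBar N →ₐ[Qb] modularFunctionFieldBar M) :
    NormFormulaAlong Qb p (finiteAlong_bar p) :=
  NormFormula15.normFormulaAlong_of_isGen p (finiteAlong_bar p) (FbarFacts20.isGen_j M)

/-- **pull-back `p^* : J₀(N) → J₀(M)`** along any `p : Fbar N → Fbar M`. -/
def pull (p : modularFunctionFieldBar N →ₐ[Qb] modularFunctionFieldBar M) : JZero N →+ JZero M :=
  pic0PullbackAlong p (isIntegral_bar p) (fundamentalIdentityAlong_bar p)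

/-- **push-forward `p_* : J₀(M) → J₀(N)`** along any `p : Fbar N → Fbar M`. -/
def push (p : modularFunctionFieldBar N →ₐ[Qb] modularFunctionFieldBar M) : JZero M →+ JZero N :=
  pic0PushAlong p (isIntegral_bar p) (finiteAlong_bar p) (normFormulaAlong_bar p)

theorem pull_mk (p : modularFunctionFieldBar N →ₐ[Qb] modularFunctionFieldBar M)
    (D : Divisor.degZero (K := Qb) (F := modularFunctionFieldBar N)) :
    pull p (Pic0.mk D) =
      Pic0.mk ⟨Divisor.pullbackAlong p (isIntegral_bar p)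
        (D : Divisor Qb (modularFunctionFieldBar N)),
        Divisor.pullbackAlong_mem_degZero p (isIntegral_bar p) (fundamentalIdentityAlong_bar p)
          D.2⟩ :=
  rfl

theorem push_mk (p : modularFunctionFieldBar N →ₐ[Qb] modularFunctionFieldBar M)
    (D : Divisor.degZero (K := Qb) (F := modularFunctionFieldBar M)) :
    push p (Pic0.mk D) = Pic0.mk (degZeroPushAlong p (isIntegral_bar p) D) :=
  rfl

theorem pull_levelIncl (h : N ∣ M) : pull (levelIncl h) = levelPullback h := rfl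

/-- **`p_* p^* = deg p`** on `J₀`. -/
theorem push_pull (p : modularFunctionFieldBar N →ₐ[Qb] modularFunctionFieldBar M) (x : JZero N) :
    push p (pull p x) = finrankAlong Qb p • x := by
  obtain ⟨D, rfl⟩ := Pic0.mk_surjective x
  rw [pull_mk, push_mk]
  have h1 : (finrankAlong Qb p • Pic0.mk D : JZero N) = Pic0.mk (finrankAlong Qb p • D) := rfl
  rw [h1]
  refine congrArg Pic0.mk (Subtype.ext ?_)
  rw [coe_degZeroPushAlong]
  exact PushPull47.pushforwardAlong_pullbackAlong p (isIntegral_bar p)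
    (fundamentalIdentityAlong_bar p) (FbarFacts20.deg_eq_one_bar N)
    (FbarFacts20.deg_eq_one_bar M) (D : Divisor Qb (modularFunctionFieldBar N))

end Auto

/-! ### Functoriality -/

section Functorial

variable {N M P : ℕ} [NeZero N] [NeZero M] [NeZero P]

theorem pull_comp (p : modularFunctionFieldBar N →ₐ[Qb] modularFunctionFieldBar M)
    (p' : modularFunctionFieldBar M →ₐ[Qb] modularFunctionFieldBar P) (x : JZero N) :
    pull (p'.comp p) x = pull p' (pull p x) := by
  obtain ⟨D, rfl⟩ := Pic0.mk_surjective x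
  rw [pull_mk, pull_mk, pull_mk]
  refine congrArg Pic0.mk (Subtype.ext ?_)
  exact BaseChange19.pullbackAlong_comp p p' (isIntegral_bar p) (isIntegral_bar p')
    (isIntegral_bar (p'.comp p)) (D : Divisor Qb (modularFunctionFieldBar N))

theorem push_comp (p : modularFunctionFieldBar N →ₐ[Qb] modularFunctionFieldBar M)
    (p' : modularFunctionFieldBar M →ₐ[Qb] modularFunctionFieldBar P) (y : JZero P) :
    push (p'.comp p) y = push p (push p' y) := by
  obtain ⟨D, rfl⟩ := Pic0.mk_surjective y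
  rw [push_mk, push_mk, push_mk]
  refine congrArg Pic0.mk (Subtype.ext ?_)
  rw [coe_degZeroPushAlong, coe_degZeroPushAlong, coe_degZeroPushAlong]
  exact PushPull47.pushforwardAlong_comp p p' (isIntegral_bar p) (isIntegral_bar p')
    (isIntegral_bar (p'.comp p)) (FbarFacts20.deg_eq_one_bar N) (FbarFacts20.deg_eq_one_bar M)
    (FbarFacts20.deg_eq_one_bar P) (D : Divisor Qb (modularFunctionFieldBar P))

end Functorial

/-! ### Degeneracy maps -/

section Degen

variable {N M P : ℕ} [NeZero N] [NeZero M] [NeZero P]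

/-- `p` acts on `q`-expansions by `q ↦ q^d`. -/
def IsDegen (d : ℕ) [NeZero d]
    (p : modularFunctionFieldBar N →ₐ[Qb] modularFunctionFieldBar M) : Prop :=
  ∀ x : modularFunctionFieldBar N,
    ((p x : modularFunctionFieldBar M) : LaurentSeries Qb) =
      qExpand Qb d (x : LaurentSeries Qb)

theorem isDegen_levelIncl (h : N ∣ M) : IsDegen 1 (levelIncl h) := fun x => by
  rw [coe_levelIncl, qExpand_one_apply]

theorem isDegen_alpha (N ℓ : ℕ) [NeZero N] [NeZero ℓ] : IsDegen 1 (heckeAlphaBar Qb N ℓ) :=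
  fun x => by rw [coe_heckeAlphaBar, qExpand_one_apply]

theorem isDegen_beta (N ℓ : ℕ) [NeZero N] [NeZero ℓ] : IsDegen ℓ (heckeBetaBar Qb N ℓ) :=
  fun x => coe_heckeBetaBar N ℓ x

theorem IsDegen.comp {d e : ℕ} [NeZero d] [NeZero e]
    {p : modularFunctionFieldBar N →ₐ[Qb] modularFunctionFieldBar M}
    {p' : modularFunctionFieldBar M →ₐ[Qb] modularFunctionFieldBar P}
    (hp : IsDegen d p) (hp' : IsDegen e p') : IsDegen (e * d) (p'.comp p) := fun x => by
  rw [AlgHom.comp_apply, hp', hp, qExpand_qExpand]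

theorem IsDegen.congr {d e : ℕ} [NeZero d] [NeZero e] (h : d = e)
    {p : modularFunctionFieldBar N →ₐ[Qb] modularFunctionFieldBar M} (hp : IsDegen d p) :
    IsDegen e p := fun x => by
  rw [hp x]
  exact qExpand_congr h _

/-- a map of type `d` is unique. -/
theorem IsDegen.ext {d : ℕ} [NeZero d]
    {p p' : modularFunctionFieldBar N →ₐ[Qb] modularFunctionFieldBar M}
    (hp : IsDegen d p) (hp' : IsDegen d p') : p = p' :=
  AlgHom.ext fun x => Subtype.ext (by rw [hp, hp'])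

/-- a map of type `d` sends `j(q^e)` to `j(q^{d e})`. -/
theorem IsDegen.map_jdF {d : ℕ} [NeZero d]
    {p : modularFunctionFieldBar N →ₐ[Qb] modularFunctionFieldBar M} (hp : IsDegen d p)
    (e : ℕ) [NeZero e] (he : e ∣ N) (hde : d * e ∣ M) :
    p (jdF N e he) = jdF M (d * e) hde := by
  apply Subtype.ext
  rw [hp, FracR.coe_jdF, FracR.coe_jdF, ← qExpand_qExpand e d jq]
  exact (CuspGood.coeffMap_qExpand (algebraMap ℚ Kbar) d (qExpand ℚ e jq)).symm

theorem jdF_congr {d d' : ℕ} [NeZero d] [NeZero d'] (h : d = d') (hd : d ∣ N) (hd' : d' ∣ N) :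
    jdF N d hd = jdF N d' hd' := by
  subst h
  rfl

/-- the Laurent series of `j(q^e) ∈ Fbar N`. -/
theorem coe_jdF_eq (e : ℕ) [NeZero e] (he : e ∣ N) :
    ((jdF N e he : FF N) : LaurentSeries Kbar) = qExpand Kbar e jqK := by
  rw [FracR.coe_jdF, jqK]
  exact CuspGood.coeffMap_qExpand (algebraMap ℚ Kbar) e jq

variable {ℓ : ℕ} [NeZero ℓ]

/-- the `α`-square of two maps of the same type commutes. -/
theorem alpha_comp_of_isDegen {d : ℕ} [NeZero d]
    {p : modularFunctionFieldBar N →ₐ[Qb] modularFunctionFieldBar M}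
    {p' : modularFunctionFieldBar (N * ℓ) →ₐ[Qb] modularFunctionFieldBar (M * ℓ)}
    (hp : IsDegen d p) (hp' : IsDegen d p') :
    (heckeAlphaBar Qb M ℓ).comp p = p'.comp (heckeAlphaBar Qb N ℓ) := by
  apply AlgHom.ext
  intro x
  apply Subtype.ext
  rw [AlgHom.comp_apply, AlgHom.comp_apply, coe_heckeAlphaBar, hp, hp', coe_heckeAlphaBar]

/-- the `β`-square of two maps of the same type commutes. -/
theorem beta_comp_of_isDegen {d : ℕ} [NeZero d]
    {p : modularFunctionFieldBar N →ₐ[Qb] modularFunctionFieldBar M}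
    {p' : modularFunctionFieldBar (N * ℓ) →ₐ[Qb] modularFunctionFieldBar (M * ℓ)}
    (hp : IsDegen d p) (hp' : IsDegen d p') :
    (heckeBetaBar Qb M ℓ).comp p = p'.comp (heckeBetaBar Qb N ℓ) := by
  apply AlgHom.ext
  intro x
  apply Subtype.ext
  rw [AlgHom.comp_apply, AlgHom.comp_apply, coe_heckeBetaBar, hp, hp', coe_heckeBetaBar,
    qExpand_qExpand, qExpand_qExpand]
  exact qExpand_congr (mul_comm ℓ d) _

end Degen

/-! ### Generation of `Fbar (M ℓ)` over `α(Fbar M)` and over `β(Fbar M)` -/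

section Generation

variable {M ℓ : ℕ} [NeZero M] [NeZero ℓ]

/-- the degree of `j(q^{dℓ})` over `α(Fbar M)` is at least `ℓ` (`d ∣ M`, expansion at the cusp `0`:
`T_S (j(q^{dℓ})) = j(q^{M/d})` has order `-M/d`, prime to `ℓ`). -/
theorem le_natDegree_minpoly_alpha (hℓ : ℓ.Prime) (hℓM : ¬ ℓ ∣ M) (d k : ℕ) [NeZero d] [NeZero k]
    (hM : M = d * k) :
    letI := algebraAlong (heckeAlphaBar Qb M ℓ)
    ℓ ≤ (minpoly (modularFunctionFieldBar M)
      (jdF (M * ℓ) (d * ℓ) ⟨k, by rw [hM]; ring⟩)).natDegree := by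
  letI := algebraAlong (heckeAlphaBar Qb M ℓ)
  haveI : FiniteDimensional (modularFunctionFieldBar M) (modularFunctionFieldBar (M * ℓ)) :=
    AlongDegree25.finiteAlong_alpha Qb M ℓ hℓ hℓM
  have hMk : M * ℓ = d * ℓ * k := by rw [hM]; ring
  set y : modularFunctionFieldBar (M * ℓ) := jdF (M * ℓ) (d * ℓ) ⟨k, hMk⟩ with hy
  set τ : modularFunctionFieldBar (M * ℓ) →+* LaurentSeries Kbar :=
    (cuspData (M * ℓ)).T ModularGroup.S with hτ
  letI : Algebra (modularFunctionFieldBar M) (LaurentSeries Kbar) :=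
    (τ.comp (algebraMap (modularFunctionFieldBar M) (modularFunctionFieldBar (M * ℓ)))).toAlgebra
  let φ : modularFunctionFieldBar (M * ℓ) →ₐ[modularFunctionFieldBar M] LaurentSeries Kbar :=
    { τ with commutes' := fun _ => rfl }
  have hφ : Function.Injective φ := τ.injective
  have hmin : minpoly (modularFunctionFieldBar M) (φ y) =
      minpoly (modularFunctionFieldBar M) y := minpoly.algHom_eq φ hφ y
  rw [← hmin]
  have hval : φ y = qExpand Kbar k jqK := T_S_jdF (M * ℓ) (d * ℓ) k hMk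
  have hord : (φ y).order = -(k : ℤ) := by rw [hval]; exact order_qExpand_jqK k
  have hy0 : φ y ≠ 0 := by
    intro h0
    rw [h0, HahnSeries.order_zero] at hord
    have : (k : ℤ) = 0 := by omega
    exact NeZero.ne k (by exact_mod_cast this)
  have hcop : IsCoprime (φ y).order (ℓ : ℤ) := by
    rw [hord]
    have hkM : k ∣ M := ⟨d, by rw [hM]; ring⟩
    have h1 : Nat.Coprime k ℓ :=
      ((Nat.Prime.coprime_iff_not_dvd hℓ).mpr (fun h => hℓM (h.trans hkM))).symm
    exact (Nat.isCoprime_iff_coprime.mpr h1).neg_left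
  have hF : ∀ a : modularFunctionFieldBar M,
      algebraMap (modularFunctionFieldBar M) (LaurentSeries Kbar) a ∈
        Set.range (qExpand Kbar ℓ) := fun a => T_S_mem_range M (M * ℓ) ℓ rfl a
  have hint : IsIntegral (modularFunctionFieldBar M) (φ y) :=
    (isIntegral_algHom_iff φ hφ).mpr
      (Algebra.IsIntegral.isIntegral (R := modularFunctionFieldBar M) y)
  exact Fermat.Agent.IG.PR.RamDeg25.le_natDegree_minpoly hy0 hcop hF hint

/-- **`Fbar (M ℓ) = α(Fbar M)(j(q^{dℓ}))`** for `d ∣ M`, `ℓ ∤ M` prime. -/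
theorem adjoin_alpha_jdF_eq_top (hℓ : ℓ.Prime) (hℓM : ¬ ℓ ∣ M) (d k : ℕ) [NeZero d] [NeZero k]
    (hM : M = d * k) :
    letI := algebraAlong (heckeAlphaBar Qb M ℓ)
    IntermediateField.adjoin (modularFunctionFieldBar M)
      {jdF (M * ℓ) (d * ℓ) ⟨k, by rw [hM]; ring⟩} = ⊤ := by
  letI := algebraAlong (heckeAlphaBar Qb M ℓ)
  haveI : FiniteDimensional (modularFunctionFieldBar M) (modularFunctionFieldBar (M * ℓ)) :=
    AlongDegree25.finiteAlong_alpha Qb M ℓ hℓ hℓM
  have hfr : Module.finrank (modularFunctionFieldBar M) (modularFunctionFieldBar (M * ℓ)) = ℓ + 1 :=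
    AlongDegree25.finrankAlong_alpha Qb M ℓ hℓ hℓM
  rw [Field.primitive_element_iff_minpoly_natDegree_eq, hfr]
  have hdvd : (minpoly (modularFunctionFieldBar M)
      (jdF (M * ℓ) (d * ℓ) ⟨k, by rw [hM]; ring⟩)).natDegree ∣ ℓ + 1 := by
    rw [← hfr]
    exact minpoly.degree_dvd (Algebra.IsIntegral.isIntegral _)
  exact LevelTop20.eq_succ_of_dvd_of_le hℓ.two_le hdvd
    (le_natDegree_minpoly_alpha hℓ hℓM d k hM)

/-- the degree of `j(q^d)` over `β(Fbar M)` is at least `ℓ` (`d ∣ M`; expansion at `∞`: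
`β(Fbar M) ⊆ ℚ̄((q^ℓ))` and `j(q^d)` has order `-d`, prime to `ℓ`). -/
theorem le_natDegree_minpoly_beta (hℓ : ℓ.Prime) (hℓM : ¬ ℓ ∣ M) (d : ℕ) [NeZero d]
    (hd : d ∣ M) :
    letI := algebraAlong (heckeBetaBar Qb M ℓ)
    ℓ ≤ (minpoly (modularFunctionFieldBar M)
      (jdF (M * ℓ) d (hd.mul_right ℓ))).natDegree := by
  letI := algebraAlong (heckeBetaBar Qb M ℓ)
  haveI : FiniteDimensional (modularFunctionFieldBar M) (modularFunctionFieldBar (M * ℓ)) :=
    AlongDegree25.finiteAlong_beta Qb M ℓ hℓ hℓM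
  set y : modularFunctionFieldBar (M * ℓ) := jdF (M * ℓ) d (hd.mul_right ℓ) with hy
  set τ : modularFunctionFieldBar (M * ℓ) →+* LaurentSeries Kbar :=
    (modularFunctionFieldBar (M * ℓ)).val.toRingHom with hτ
  letI : Algebra (modularFunctionFieldBar M) (LaurentSeries Kbar) :=
    (τ.comp (algebraMap (modularFunctionFieldBar M) (modularFunctionFieldBar (M * ℓ)))).toAlgebra
  let φ : modularFunctionFieldBar (M * ℓ) →ₐ[modularFunctionFieldBar M] LaurentSeries Kbar :=
    { τ with commutes' := fun _ => rfl }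
  have hφ : Function.Injective φ := τ.injective
  have hmin : minpoly (modularFunctionFieldBar M) (φ y) =
      minpoly (modularFunctionFieldBar M) y := minpoly.algHom_eq φ hφ y
  rw [← hmin]
  have hval : φ y = qExpand Kbar d jqK := coe_jdF_eq d (hd.mul_right ℓ)
  have hord : (φ y).order = -(d : ℤ) := by rw [hval]; exact order_qExpand_jqK d
  have hy0 : φ y ≠ 0 := by
    intro h0
    rw [h0, HahnSeries.order_zero] at hord
    have : (d : ℤ) = 0 := by omega
    exact NeZero.ne d (by exact_mod_cast this)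
  have hcop : IsCoprime (φ y).order (ℓ : ℤ) := by
    rw [hord]
    have h1 : Nat.Coprime d ℓ :=
      ((Nat.Prime.coprime_iff_not_dvd hℓ).mpr (fun h => hℓM (h.trans hd))).symm
    exact (Nat.isCoprime_iff_coprime.mpr h1).neg_left
  have hF : ∀ a : modularFunctionFieldBar M,
      algebraMap (modularFunctionFieldBar M) (LaurentSeries Kbar) a ∈
        Set.range (qExpand Kbar ℓ) := fun a => ⟨(a : LaurentSeries Kbar), rfl⟩
  have hint : IsIntegral (modularFunctionFieldBar M) (φ y) :=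
    (isIntegral_algHom_iff φ hφ).mpr
      (Algebra.IsIntegral.isIntegral (R := modularFunctionFieldBar M) y)
  exact Fermat.Agent.IG.PR.RamDeg25.le_natDegree_minpoly hy0 hcop hF hint

/-- **`Fbar (M ℓ) = β(Fbar M)(j(q^d))`** for `d ∣ M`, `ℓ ∤ M` prime. -/
theorem adjoin_beta_jdF_eq_top (hℓ : ℓ.Prime) (hℓM : ¬ ℓ ∣ M) (d : ℕ) [NeZero d] (hd : d ∣ M) :
    letI := algebraAlong (heckeBetaBar Qb M ℓ)
    IntermediateField.adjoin (modularFunctionFieldBar M)
      {jdF (M * ℓ) d (hd.mul_right ℓ)} = ⊤ := by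
  letI := algebraAlong (heckeBetaBar Qb M ℓ)
  haveI : FiniteDimensional (modularFunctionFieldBar M) (modularFunctionFieldBar (M * ℓ)) :=
    AlongDegree25.finiteAlong_beta Qb M ℓ hℓ hℓM
  have hfr : Module.finrank (modularFunctionFieldBar M) (modularFunctionFieldBar (M * ℓ)) = ℓ + 1 :=
    AlongDegree25.finrankAlong_beta Qb M ℓ hℓ hℓM
  rw [Field.primitive_element_iff_minpoly_natDegree_eq, hfr]
  have hdvd : (minpoly (modularFunctionFieldBar M)
      (jdF (M * ℓ) d (hd.mul_right ℓ))).natDegree ∣ ℓ + 1 := by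
    rw [← hfr]
    exact minpoly.degree_dvd (Algebra.IsIntegral.isIntegral _)
  exact LevelTop20.eq_succ_of_dvd_of_le hℓ.two_le hdvd (le_natDegree_minpoly_beta hℓ hℓM d hd)

end Generation

/-! ### Base change on divisors -/

section BaseChange

variable {N M ℓ : ℕ} [NeZero N] [NeZero M] [NeZero ℓ]

/-- the norm compatibility in the `α`-square. -/
theorem normAlong_alpha_compat {d : ℕ} [NeZero d] (hd : d ∣ M) (hℓ : ℓ.Prime) (hℓN : ¬ ℓ ∣ N)
    (hℓM : ¬ ℓ ∣ M)
    {p : modularFunctionFieldBar N →ₐ[Qb] modularFunctionFieldBar M}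
    {p' : modularFunctionFieldBar (N * ℓ) →ₐ[Qb] modularFunctionFieldBar (M * ℓ)}
    (hp : IsDegen d p) (hp' : IsDegen d p') (f : modularFunctionFieldBar (N * ℓ)) :
    BaseChange19.normAlong (heckeAlphaBar Qb M ℓ) (p' f) =
      p (BaseChange19.normAlong (heckeAlphaBar Qb N ℓ) f) := by
  obtain ⟨k, hk⟩ := hd
  haveI : NeZero k := ⟨fun h0 => NeZero.ne M (by rw [hk, h0, mul_zero])⟩
  have hdl : d * ℓ ∣ M * ℓ := ⟨k, by rw [hk]; ring⟩
  refine NormCompat12.normAlong_compat_of_adjoin (heckeAlphaBar Qb N ℓ) p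
    (heckeAlphaBar Qb M ℓ) p' (alpha_comp_of_isDegen hp hp')
    (AlongDegree25.finiteAlong_alpha Qb N ℓ hℓ hℓN) (AlongDegree25.finiteAlong_alpha Qb M ℓ hℓ hℓM)
    (by rw [AlongDegree25.finrankAlong_alpha Qb N ℓ hℓ hℓN,
      AlongDegree25.finrankAlong_alpha Qb M ℓ hℓ hℓM]) (jdF (N * ℓ) ℓ (dvd_mul_left ℓ N)) ?_ f
  rw [hp'.map_jdF ℓ (dvd_mul_left ℓ N) hdl]
  exact adjoin_alpha_jdF_eq_top hℓ hℓM d k hk

/-- the norm compatibility in the `β`-square. -/
theorem normAlong_beta_compat {d : ℕ} [NeZero d] (hd : d ∣ M) (hℓ : ℓ.Prime) (hℓN : ¬ ℓ ∣ N)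
    (hℓM : ¬ ℓ ∣ M)
    {p : modularFunctionFieldBar N →ₐ[Qb] modularFunctionFieldBar M}
    {p' : modularFunctionFieldBar (N * ℓ) →ₐ[Qb] modularFunctionFieldBar (M * ℓ)}
    (hp : IsDegen d p) (hp' : IsDegen d p') (f : modularFunctionFieldBar (N * ℓ)) :
    BaseChange19.normAlong (heckeBetaBar Qb M ℓ) (p' f) =
      p (BaseChange19.normAlong (heckeBetaBar Qb N ℓ) f) := by
  have hd1 : d * 1 ∣ M * ℓ := by rw [mul_one]; exact hd.mul_right ℓ
  refine NormCompat12.normAlong_compat_of_adjoin (heckeBetaBar Qb N ℓ) p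
    (heckeBetaBar Qb M ℓ) p' (beta_comp_of_isDegen hp hp')
    (AlongDegree25.finiteAlong_beta Qb N ℓ hℓ hℓN) (AlongDegree25.finiteAlong_beta Qb M ℓ hℓ hℓM)
    (by rw [AlongDegree25.finrankAlong_beta Qb N ℓ hℓ hℓN,
      AlongDegree25.finrankAlong_beta Qb M ℓ hℓ hℓM]) (jdF (N * ℓ) 1 (one_dvd _)) ?_ f
  rw [hp'.map_jdF 1 (one_dvd _) hd1, jdF_congr (mul_one d) hd1 (hd.mul_right ℓ)]
  exact adjoin_beta_jdF_eq_top hℓ hℓM d hd

/-- **base change, `α`**: `p^* ∘ α_*^{(N)} = α_*^{(M)} ∘ p'^*` on divisors. -/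
theorem pullback_pushforward_alpha {d : ℕ} [NeZero d] (hd : d ∣ M) (hℓ : ℓ.Prime)
    (hℓN : ¬ ℓ ∣ N) (hℓM : ¬ ℓ ∣ M)
    {p : modularFunctionFieldBar N →ₐ[Qb] modularFunctionFieldBar M}
    {p' : modularFunctionFieldBar (N * ℓ) →ₐ[Qb] modularFunctionFieldBar (M * ℓ)}
    (hp : IsDegen d p) (hp' : IsDegen d p')
    (D : Divisor Qb (modularFunctionFieldBar (N * ℓ))) :
    Divisor.pullbackAlong p (isIntegral_bar p)
        (Divisor.pushforwardAlong (heckeAlphaBar Qb N ℓ) (isIntegral_bar _) D) =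
      Divisor.pushforwardAlong (heckeAlphaBar Qb M ℓ) (isIntegral_bar _)
        (Divisor.pullbackAlong p' (isIntegral_bar p') D) :=
  BaseChange19.pullbackAlong_pushforwardAlong (heckeAlphaBar Qb N ℓ) p (heckeAlphaBar Qb M ℓ) p'
    (alpha_comp_of_isDegen hp hp') (isIntegral_bar _) (isIntegral_bar p) (isIntegral_bar _)
    (isIntegral_bar p') (finiteAlong_bar _) (finiteAlong_bar _) (normFormulaAlong_bar _)
    (normFormulaAlong_bar _) (normAlong_alpha_compat hd hℓ hℓN hℓM hp hp') D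

/-- **base change, `β`**: `p^* ∘ β_*^{(N)} = β_*^{(M)} ∘ p'^*` on divisors. -/
theorem pullback_pushforward_beta {d : ℕ} [NeZero d] (hd : d ∣ M) (hℓ : ℓ.Prime)
    (hℓN : ¬ ℓ ∣ N) (hℓM : ¬ ℓ ∣ M)
    {p : modularFunctionFieldBar N →ₐ[Qb] modularFunctionFieldBar M}
    {p' : modularFunctionFieldBar (N * ℓ) →ₐ[Qb] modularFunctionFieldBar (M * ℓ)}
    (hp : IsDegen d p) (hp' : IsDegen d p')
    (D : Divisor Qb (modularFunctionFieldBar (N * ℓ))) :
    Divisor.pullbackAlong p (isIntegral_bar p)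
        (Divisor.pushforwardAlong (heckeBetaBar Qb N ℓ) (isIntegral_bar _) D) =
      Divisor.pushforwardAlong (heckeBetaBar Qb M ℓ) (isIntegral_bar _)
        (Divisor.pullbackAlong p' (isIntegral_bar p') D) :=
  BaseChange19.pullbackAlong_pushforwardAlong (heckeBetaBar Qb N ℓ) p (heckeBetaBar Qb M ℓ) p'
    (beta_comp_of_isDegen hp hp') (isIntegral_bar _) (isIntegral_bar p) (isIntegral_bar _)
    (isIntegral_bar p') (finiteAlong_bar _) (finiteAlong_bar _) (normFormulaAlong_bar _)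
    (normFormulaAlong_bar _) (normAlong_beta_compat hd hℓ hℓN hℓM hp hp') D

/-- **base change on `J₀`, `α`**: `p^* ∘ α_* = α_* ∘ p'^*`. -/
theorem pull_push_alpha {d : ℕ} [NeZero d] (hd : d ∣ M) (hℓ : ℓ.Prime)
    (hℓN : ¬ ℓ ∣ N) (hℓM : ¬ ℓ ∣ M)
    {p : modularFunctionFieldBar N →ₐ[Qb] modularFunctionFieldBar M}
    {p' : modularFunctionFieldBar (N * ℓ) →ₐ[Qb] modularFunctionFieldBar (M * ℓ)}
    (hp : IsDegen d p) (hp' : IsDegen d p') (y : JZero (N * ℓ)) :
    pull p (push (heckeAlphaBar Qb N ℓ) y) = push (heckeAlphaBar Qb M ℓ) (pull p' y) := by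
  obtain ⟨D, rfl⟩ := Pic0.mk_surjective y
  rw [push_mk, pull_mk, pull_mk, push_mk]
  refine congrArg Pic0.mk (Subtype.ext ?_)
  exact pullback_pushforward_alpha hd hℓ hℓN hℓM hp hp'
    (D : Divisor Qb (modularFunctionFieldBar (N * ℓ)))

/-- **base change on `J₀`, `β`**: `p^* ∘ β_* = β_* ∘ p'^*`. -/
theorem pull_push_beta {d : ℕ} [NeZero d] (hd : d ∣ M) (hℓ : ℓ.Prime)
    (hℓN : ¬ ℓ ∣ N) (hℓM : ¬ ℓ ∣ M)
    {p : modularFunctionFieldBar N →ₐ[Qb] modularFunctionFieldBar M}
    {p' : modularFunctionFieldBar (N * ℓ) →ₐ[Qb] modularFunctionFieldBar (M * ℓ)}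
    (hp : IsDegen d p) (hp' : IsDegen d p') (y : JZero (N * ℓ)) :
    pull p (push (heckeBetaBar Qb N ℓ) y) = push (heckeBetaBar Qb M ℓ) (pull p' y) := by
  obtain ⟨D, rfl⟩ := Pic0.mk_surjective y
  rw [push_mk, pull_mk, pull_mk, push_mk]
  refine congrArg Pic0.mk (Subtype.ext ?_)
  exact pullback_pushforward_beta hd hℓ hℓN hℓM hp hp'
    (D : Divisor Qb (modularFunctionFieldBar (N * ℓ)))

/-- **base change with free corners, type `1`**: `a`, `a'` ANY maps of type `1` into levels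
`N₁ = N ℓ`, `M₁ = M ℓ` (propositional equalities). -/
theorem pull_push_one {N₁ M₁ : ℕ} [NeZero N₁] [NeZero M₁] (hN₁ : N₁ = N * ℓ) (hM₁ : M₁ = M * ℓ)
    {d : ℕ} [NeZero d] (hd : d ∣ M) (hℓ : ℓ.Prime) (hℓN : ¬ ℓ ∣ N) (hℓM : ¬ ℓ ∣ M)
    {a : modularFunctionFieldBar N →ₐ[Qb] modularFunctionFieldBar N₁}
    {a' : modularFunctionFieldBar M →ₐ[Qb] modularFunctionFieldBar M₁}
    {p : modularFunctionFieldBar N →ₐ[Qb] modularFunctionFieldBar M}
    {p' : modularFunctionFieldBar N₁ →ₐ[Qb] modularFunctionFieldBar M₁}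
    (ha : IsDegen 1 a) (ha' : IsDegen 1 a') (hp : IsDegen d p) (hp' : IsDegen d p')
    (y : JZero N₁) :
    pull p (push a y) = push a' (pull p' y) := by
  subst hN₁ hM₁
  rw [ha.ext (isDegen_alpha N ℓ), ha'.ext (isDegen_alpha M ℓ)]
  exact pull_push_alpha hd hℓ hℓN hℓM hp hp' y

/-- **base change with free corners, type `ℓ`**: `a`, `a'` ANY maps of type `ℓ` into levels
`N₁ = N ℓ`, `M₁ = M ℓ`. -/
theorem pull_push_prime {N₁ M₁ : ℕ} [NeZero N₁] [NeZero M₁] (hN₁ : N₁ = N * ℓ) (hM₁ : M₁ = M * ℓ)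
    {d : ℕ} [NeZero d] (hd : d ∣ M) (hℓ : ℓ.Prime) (hℓN : ¬ ℓ ∣ N) (hℓM : ¬ ℓ ∣ M)
    {a : modularFunctionFieldBar N →ₐ[Qb] modularFunctionFieldBar N₁}
    {a' : modularFunctionFieldBar M →ₐ[Qb] modularFunctionFieldBar M₁}
    {p : modularFunctionFieldBar N →ₐ[Qb] modularFunctionFieldBar M}
    {p' : modularFunctionFieldBar N₁ →ₐ[Qb] modularFunctionFieldBar M₁}
    (ha : IsDegen ℓ a) (ha' : IsDegen ℓ a') (hp : IsDegen d p) (hp' : IsDegen d p')
    (y : JZero N₁) :
    pull p (push a y) = push a' (pull p' y) := by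
  subst hN₁ hM₁
  rw [ha.ext (isDegen_beta N ℓ), ha'.ext (isDegen_beta M ℓ)]
  exact pull_push_beta hd hℓ hℓN hℓM hp hp' y

end BaseChange

/-! ### Hecke operators -/

section Hecke

variable {N M ℓ : ℕ} [NeZero N] [NeZero M] [NeZero ℓ]

/-- **`T_ℓ = α_* β^*`** on `J₀(N)`, for EVERY `ℓ` (all inputs of the Prelude definition are
automatic). -/
theorem heckeOperatorAlong_eq_push_pull (N ℓ : ℕ) [NeZero N] [NeZero ℓ] (x : JZero N) :
    heckeOperatorAlong Qb N ℓ x =
      push (heckeAlphaBar Qb N ℓ) (pull (heckeBetaBar Qb N ℓ) x) := by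
  rw [heckeOperatorAlong_eq (isIntegral_bar (heckeAlphaBar Qb N ℓ))
    (isIntegral_bar (heckeBetaBar Qb N ℓ)) (fundamentalIdentityAlong_bar _) (finiteAlong_bar _)
    (normFormulaAlong_bar _)]
  obtain ⟨D, rfl⟩ := Pic0.mk_surjective x
  unfold heckePic0Bar
  rw [Pic0.correspondence_mk, pull_mk, push_mk]
  refine congrArg Pic0.mk (Subtype.ext ?_)
  rw [Pic0.coe_degZeroCorrespondence, Divisor.correspondence_apply]
  rfl

/-- **`p^* ∘ T_ℓ^{(N)} = T_ℓ^{(M)} ∘ p^*`** for every `p : Fbar N → Fbar M` of type `d ∣ M`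
(`ℓ` prime, `ℓ ∤ N`, `ℓ ∤ M`), given a companion `p'` at level `ℓ`. -/
theorem pull_heckeOperatorAlong {d : ℕ} [NeZero d] (hd : d ∣ M) (hℓ : ℓ.Prime)
    (hℓN : ¬ ℓ ∣ N) (hℓM : ¬ ℓ ∣ M)
    {p : modularFunctionFieldBar N →ₐ[Qb] modularFunctionFieldBar M}
    {p' : modularFunctionFieldBar (N * ℓ) →ₐ[Qb] modularFunctionFieldBar (M * ℓ)}
    (hp : IsDegen d p) (hp' : IsDegen d p') (x : JZero N) :
    pull p (heckeOperatorAlong Qb N ℓ x) = heckeOperatorAlong Qb M ℓ (pull p x) := by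
  rw [heckeOperatorAlong_eq_push_pull, heckeOperatorAlong_eq_push_pull,
    pull_push_alpha hd hℓ hℓN hℓM hp hp', ← pull_comp, ← pull_comp,
    beta_comp_of_isDegen hp hp']

/-- the companion `p'` always exists: `p' := levelIncl ∘ β_d` at level `N ℓ`. -/
theorem exists_isDegen (d : ℕ) [NeZero d] (h : N * d ∣ M) :
    ∃ p : modularFunctionFieldBar N →ₐ[Qb] modularFunctionFieldBar M, IsDegen d p :=
  ⟨(levelIncl h).comp (heckeBetaBar Qb N d),
    ((isDegen_beta N d).comp (isDegen_levelIncl h)).congr (one_mul d)⟩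

/-- **`p^* ∘ T_ℓ = T_ℓ ∘ p^*`** without the companion. -/
theorem pull_heckeOperatorAlong' {d : ℕ} [NeZero d] (h : N * d ∣ M) (hℓ : ℓ.Prime)
    (hℓM : ¬ ℓ ∣ M) {p : modularFunctionFieldBar N →ₐ[Qb] modularFunctionFieldBar M}
    (hp : IsDegen d p) (x : JZero N) :
    pull p (heckeOperatorAlong Qb N ℓ x) = heckeOperatorAlong Qb M ℓ (pull p x) := by
  have hNM : N ∣ M := (dvd_mul_right N d).trans h
  have hdM : d ∣ M := (dvd_mul_left d N).trans h
  have hℓN : ¬ ℓ ∣ N := fun h' => hℓM (h'.trans hNM)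
  have h' : N * ℓ * d ∣ M * ℓ := by
    rw [mul_right_comm]
    exact mul_dvd_mul_right h ℓ
  obtain ⟨p', hp'⟩ := exists_isDegen (N := N * ℓ) (M := M * ℓ) d h'
  exact pull_heckeOperatorAlong hdM hℓ hℓN hℓM hp hp' x

end Hecke

end Fermat.Agent.M1.Lvl.GenBC47
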