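/-
M1 (S44), chapter LVL, helper47: **the concrete level operations**, all corollaries of the generic
base change `GenBC47`.

* Galois equivariance of `pull p`, `push p` for every degeneracy map `p` (`pull_smul`, `push_smul`);
* `levelPullback_alphaPush`, `levelPullback_betaPush`: `π^* α_* = α_* π^*`, `π^* β_* = β_* π^*`;
* `alphaPush_heckeOperatorAlong`, `betaPush_heckeOperatorAlong` (+ `heckeOperatorBar` forms):
  `α_{q*} T_ℓ = T_ℓ α_{q*}`, `β_{q*} T_ℓ = T_ℓ β_{q*}` (`ℓ ≠ q` primes not dividing `M`);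
* the general degeneracy pull `degenPull d h : J₀(N) → J₀(M)` (`N d ∣ M`, `q ↦ q^d`; `d = 2` is the
  `B_2^*` of the LINK plan) with `degenPull_heckeOperatorAlong`, `degenPull_alphaPush`,
  `degenPull_betaPush`, `degenPull_smul`, `degenPush_degenPull`, and injectivity on torsion prime
  to the degree.
-/
import Mathlib
import Fermat.Agent.M1.Lvl.GenBC47
import Fermat.Agent.ES.N35.TateFrob12
import Fermat.Agent.ES.RED.PullbackInj12

set_option autoImplicit false
set_option synthInstance.maxHeartbeats 400000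
set_option linter.unusedSectionVars false
set_option linter.style.haveILetI false

open ModularCurve AlgebraicCurve IntermediateField

noncomputable section

namespace Fermat.Agent.M1.Lvl.LevelOps47

open Fermat.Agent.X0 Fermat.Agent.X0.FF
open Fermat.Agent.ES.HECKE.LevelPullback12 Fermat.Agent.ES.HECKE.LevelCompatPic12
open Fermat.Agent.ES.HECKE Fermat.Agent.ES.N35.PushO12 Fermat.Agent.RED.TOP
open Fermat.Agent.M1.Lvl.GenBC47

local notation "Qb" => AlgebraicClosure ℚ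

/-! ### Degrees multiply -/

section Degree

variable {K F F₁ G₁ : Type*} [Field K] [Field F] [Field F₁] [Field G₁] [Algebra K F]
  [Algebra K F₁] [Algebra K G₁]

theorem finrankAlong_comp (φ : F →ₐ[K] F₁) (ψ : F₁ →ₐ[K] G₁) :
    finrankAlong K (ψ.comp φ) = finrankAlong K φ * finrankAlong K ψ := by
  letI := algebraAlong φ
  letI := algebraAlong ψ
  letI : Algebra F G₁ := algebraAlong (ψ.comp φ)
  haveI : IsScalarTower F F₁ G₁ := IsScalarTower.of_algebraMap_eq (fun _ => rfl)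
  exact (Module.finrank_mul_finrank F F₁ G₁).symm

end Degree

/-! ### Galois equivariance -/

section Galois

variable {N M : ℕ} [NeZero N] [NeZero M]

theorem IsDegen.arithmeticGalois_smul {d : ℕ} [NeZero d]
    {p : modularFunctionFieldBar N →ₐ[Qb] modularFunctionFieldBar M} (hp : IsDegen d p)
    (σ : Qb ≃ₐ[ℚ] Qb) (f : modularFunctionFieldBar N) :
    p (arithmeticGalois (modularFunctionFieldFull N) σ • f) =
      arithmeticGalois (modularFunctionFieldFull M) σ • p f := by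
  apply Subtype.ext
  rw [hp, coe_arithmeticGalois_smul, coe_arithmeticGalois_smul, hp]
  exact (CuspGood.coeffMap_qExpand (σ : Qb →+* Qb) d _).symm

/-- **`p^*` is `Gal(ℚ̄/ℚ)`-equivariant** for every degeneracy map `p`. -/
theorem pull_smul {d : ℕ} [NeZero d]
    {p : modularFunctionFieldBar N →ₐ[Qb] modularFunctionFieldBar M} (hp : IsDegen d p)
    (σ : Qb ≃ₐ[ℚ] Qb) (x : JZero N) : pull p (σ • x) = σ • pull p x := by
  rw [galois_smul_pic0_def, galois_smul_pic0_def]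
  exact Fermat.Agent.ES.RED.PullbackInj12.pic0PullbackAlong_smul p (isIntegral_bar p) _ _
    (fundamentalIdentityAlong_bar p) (IsDegen.arithmeticGalois_smul hp σ) x

/-- **`p_*` is `Gal(ℚ̄/ℚ)`-equivariant** for every degeneracy map `p`. -/
theorem push_smul {d : ℕ} [NeZero d]
    {p : modularFunctionFieldBar N →ₐ[Qb] modularFunctionFieldBar M} (hp : IsDegen d p)
    (σ : Qb ≃ₐ[ℚ] Qb) (y : JZero M) : push p (σ • y) = σ • push p y := by
  rw [galois_smul_pic0_def, galois_smul_pic0_def]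
  exact Fermat.Agent.ES.N35.TateFrob12.pic0PushAlong_smul p (isIntegral_bar p) (finiteAlong_bar p)
    (normFormulaAlong_bar p) (arithmeticGalois (modularFunctionFieldFull N) σ)
    (arithmeticGalois (modularFunctionFieldFull M) σ) (IsDegen.arithmeticGalois_smul hp σ)
    (fun w => FundId12.inertiaDegAlong_eq_one p (isIntegral_bar p) (finiteAlong_bar p)
      (FbarFacts20.isGen_j N) w) y

/-- `p^*` is injective on `m`-torsion when `m` is prime to the degree of `p`. -/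
theorem pull_eq_zero_of_coprime
    (p : modularFunctionFieldBar N →ₐ[Qb] modularFunctionFieldBar M) (m : ℕ)
    (hm : Nat.Coprime m (finrankAlong Qb p)) (x : JZero N) (hmx : m • x = 0)
    (hx : pull p x = 0) : x = 0 := by
  have h1 : finrankAlong Qb p • x = 0 := by
    rw [← push_pull p x, hx, map_zero]
  have h2 : addOrderOf x ∣ m := addOrderOf_dvd_of_nsmul_eq_zero hmx
  have h3 : addOrderOf x ∣ finrankAlong Qb p := addOrderOf_dvd_of_nsmul_eq_zero h1
  have h4 : addOrderOf x ∣ 1 := by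
    rw [← Nat.Coprime.gcd_eq_one hm]
    exact Nat.dvd_gcd h2 h3
  exact AddMonoid.addOrderOf_eq_one_iff.mp (Nat.dvd_one.mp h4)

end Galois

/-! ### `π^*` against `α_*`, `β_*` -/

section LevelPush

variable {N M q ℓ : ℕ} [NeZero N] [NeZero M] [NeZero q] [NeZero ℓ]

theorem push_alpha (hq : q.Prime) (hqM : ¬ q ∣ M) :
    push (heckeAlphaBar Qb M q) = alphaPush hq hqM := rfl

theorem push_beta (hq : q.Prime) (hqM : ¬ q ∣ M) :
    push (heckeBetaBar Qb M q) = betaPush hq hqM := rfl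

/-- **`π^* ∘ α_{q*} = α_{q*} ∘ π^*`** (`N ∣ M`, `q ∤ M`). -/
theorem levelPullback_alphaPush (h : N ∣ M) (hq : q.Prime) (hqM : ¬ q ∣ M) (y : JZero (N * q)) :
    levelPullback h (alphaPush hq (not_dvd_of_dvd h hqM) y) =
      alphaPush hq hqM (levelPullback (mul_dvd_mul_right h q) y) :=
  pull_push_alpha (one_dvd M) hq (not_dvd_of_dvd h hqM) hqM (isDegen_levelIncl h)
    (isDegen_levelIncl (mul_dvd_mul_right h q)) y

/-- **`π^* ∘ β_{q*} = β_{q*} ∘ π^*`** (`N ∣ M`, `q ∤ M`). -/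
theorem levelPullback_betaPush (h : N ∣ M) (hq : q.Prime) (hqM : ¬ q ∣ M) (y : JZero (N * q)) :
    levelPullback h (betaPush hq (not_dvd_of_dvd h hqM) y) =
      betaPush hq hqM (levelPullback (mul_dvd_mul_right h q) y) :=
  pull_push_beta (one_dvd M) hq (not_dvd_of_dvd h hqM) hqM (isDegen_levelIncl h)
    (isDegen_levelIncl (mul_dvd_mul_right h q)) y

theorem not_dvd_mul_of_ne (hq : q.Prime) (hℓ : ℓ.Prime) (hqM : ¬ q ∣ M) (hℓq : ℓ ≠ q) :
    ¬ q ∣ M * ℓ := by
  intro h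
  rcases (Nat.Prime.dvd_mul hq).mp h with h | h
  · exact hqM h
  · exact hℓq ((Nat.prime_dvd_prime_iff_eq hq hℓ).mp h).symm

/-- **`α_{q*} ∘ T_ℓ^{(M q)} = T_ℓ^{(M)} ∘ α_{q*}`** (`ℓ ≠ q` primes, `q ∤ M`). -/
theorem alphaPush_heckeOperatorAlong (hq : q.Prime) (hqM : ¬ q ∣ M) (hℓ : ℓ.Prime)
    (hℓq : ℓ ≠ q) (y : JZero (M * q)) :
    alphaPush hq hqM (heckeOperatorAlong Qb (M * q) ℓ y) =
      heckeOperatorAlong Qb M ℓ (alphaPush hq hqM y) := by
  have hqMℓ : ¬ q ∣ M * ℓ := not_dvd_mul_of_ne hq hℓ hqM hℓq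
  have h₁ : M * ℓ ∣ M * q * ℓ := ⟨q, by ring⟩
  have hbc : pull (heckeBetaBar Qb M ℓ) (push (heckeAlphaBar Qb M q) y) =
      push (levelIncl h₁) (pull (heckeBetaBar Qb (M * q) ℓ) y) :=
    pull_push_one (N := M) (M := M * ℓ) (ℓ := q) (N₁ := M * q) (M₁ := M * q * ℓ) rfl
      (mul_right_comm M q ℓ) (dvd_mul_left ℓ M) hq hqM hqMℓ (isDegen_alpha M q)
      (isDegen_levelIncl h₁) (isDegen_beta M ℓ) (isDegen_beta (M * q) ℓ) y
  show push (heckeAlphaBar Qb M q) (heckeOperatorAlong Qb (M * q) ℓ y) =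
    heckeOperatorAlong Qb M ℓ (push (heckeAlphaBar Qb M q) y)
  rw [heckeOperatorAlong_eq_push_pull, heckeOperatorAlong_eq_push_pull, hbc, ← push_comp,
    ← push_comp]
  have hext : (heckeAlphaBar Qb (M * q) ℓ).comp (heckeAlphaBar Qb M q) =
      (levelIncl h₁).comp (heckeAlphaBar Qb M ℓ) :=
    IsDegen.ext ((isDegen_alpha M q).comp (isDegen_alpha (M * q) ℓ))
      ((isDegen_alpha M ℓ).comp (isDegen_levelIncl h₁))
  rw [hext]

/-- **`β_{q*} ∘ T_ℓ^{(M q)} = T_ℓ^{(M)} ∘ β_{q*}`** (`ℓ ≠ q` primes, `q ∤ M`). -/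
theorem betaPush_heckeOperatorAlong (hq : q.Prime) (hqM : ¬ q ∣ M) (hℓ : ℓ.Prime)
    (hℓq : ℓ ≠ q) (y : JZero (M * q)) :
    betaPush hq hqM (heckeOperatorAlong Qb (M * q) ℓ y) =
      heckeOperatorAlong Qb M ℓ (betaPush hq hqM y) := by
  have hqMℓ : ¬ q ∣ M * ℓ := not_dvd_mul_of_ne hq hℓ hqM hℓq
  have h₁ : M * ℓ * q ∣ M * q * ℓ := dvd_of_eq (mul_right_comm M ℓ q)
  set a' : modularFunctionFieldBar (M * ℓ) →ₐ[Qb] modularFunctionFieldBar (M * q * ℓ) :=
    (levelIncl h₁).comp (heckeBetaBar Qb (M * ℓ) q) with ha'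
  have ha'd : IsDegen q a' :=
    ((isDegen_beta (M * ℓ) q).comp (isDegen_levelIncl h₁)).congr (one_mul q)
  have hbc : pull (heckeBetaBar Qb M ℓ) (push (heckeBetaBar Qb M q) y) =
      push a' (pull (heckeBetaBar Qb (M * q) ℓ) y) :=
    pull_push_prime (N := M) (M := M * ℓ) (ℓ := q) (N₁ := M * q) (M₁ := M * q * ℓ) rfl
      (mul_right_comm M q ℓ) (dvd_mul_left ℓ M) hq hqM hqMℓ (isDegen_beta M q) ha'd
      (isDegen_beta M ℓ) (isDegen_beta (M * q) ℓ) y
  show push (heckeBetaBar Qb M q) (heckeOperatorAlong Qb (M * q) ℓ y) =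
    heckeOperatorAlong Qb M ℓ (push (heckeBetaBar Qb M q) y)
  rw [heckeOperatorAlong_eq_push_pull, heckeOperatorAlong_eq_push_pull, hbc, ← push_comp,
    ← push_comp]
  have hext : (heckeAlphaBar Qb (M * q) ℓ).comp (heckeBetaBar Qb M q) =
      a'.comp (heckeAlphaBar Qb M ℓ) :=
    IsDegen.ext (((isDegen_beta M q).comp (isDegen_alpha (M * q) ℓ)).congr (one_mul q))
      (((isDegen_alpha M ℓ).comp ha'd).congr (mul_one q))
  rw [hext]

/-- `heckeOperatorBar` form of `alphaPush_heckeOperatorAlong`. -/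
theorem alphaPush_heckeOperatorBar (hq : q.Prime) (hqM : ¬ q ∣ M) (ℓ : Nat.Primes)
    (hℓq : (ℓ : ℕ) ≠ q) (y : JZero (M * q)) :
    alphaPush hq hqM (heckeOperatorBar (M * q) ℓ y) =
      heckeOperatorBar M ℓ (alphaPush hq hqM y) := by
  haveI : NeZero (ℓ : ℕ) := ⟨ℓ.2.ne_zero⟩
  rw [heckeOperatorBar_apply, heckeOperatorBar_apply]
  exact alphaPush_heckeOperatorAlong hq hqM ℓ.2 hℓq y

/-- `heckeOperatorBar` form of `betaPush_heckeOperatorAlong`. -/
theorem betaPush_heckeOperatorBar (hq : q.Prime) (hqM : ¬ q ∣ M) (ℓ : Nat.Primes)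
    (hℓq : (ℓ : ℕ) ≠ q) (y : JZero (M * q)) :
    betaPush hq hqM (heckeOperatorBar (M * q) ℓ y) =
      heckeOperatorBar M ℓ (betaPush hq hqM y) := by
  haveI : NeZero (ℓ : ℕ) := ⟨ℓ.2.ne_zero⟩
  rw [heckeOperatorBar_apply, heckeOperatorBar_apply]
  exact betaPush_heckeOperatorAlong hq hqM ℓ.2 hℓq y

end LevelPush

/-! ### The general degeneracy pull `B_d^* : J₀(N) → J₀(M)`, `N d ∣ M` -/

section DegenPull

variable {N M : ℕ} [NeZero N] [NeZero M]

/-- **`B_d : Fbar N → Fbar M`**, `f(q) ↦ f(q^d)`, for `N d ∣ M`. -/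
def degenIncl (d : ℕ) [NeZero d] (h : N * d ∣ M) :
    modularFunctionFieldBar N →ₐ[Qb] modularFunctionFieldBar M :=
  (levelIncl h).comp (heckeBetaBar Qb N d)

theorem isDegen_degenIncl (d : ℕ) [NeZero d] (h : N * d ∣ M) : IsDegen d (degenIncl d h) :=
  ((isDegen_beta N d).comp (isDegen_levelIncl h)).congr (one_mul d)

@[simp]
theorem coe_degenIncl (d : ℕ) [NeZero d] (h : N * d ∣ M) (x : modularFunctionFieldBar N) :
    ((degenIncl d h x : modularFunctionFieldBar M) : LaurentSeries Qb) =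
      qExpand Qb d (x : LaurentSeries Qb) :=
  isDegen_degenIncl d h x

/-- **`B_d^* : J₀(N) → J₀(M)`**. -/
def degenPull (d : ℕ) [NeZero d] (h : N * d ∣ M) : JZero N →+ JZero M := pull (degenIncl d h)

/-- **`B_{d*} : J₀(M) → J₀(N)`**. -/
def degenPush (d : ℕ) [NeZero d] (h : N * d ∣ M) : JZero M →+ JZero N := push (degenIncl d h)

theorem degenPull_one (h : N * 1 ∣ M) :
    degenPull 1 h = levelPullback ((dvd_mul_right N 1).trans h) := by
  have : degenIncl 1 h = levelIncl ((dvd_mul_right N 1).trans h) :=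
    IsDegen.ext (isDegen_degenIncl 1 h) (isDegen_levelIncl _)
  unfold degenPull
  rw [this]
  rfl

theorem degenPush_degenPull (d : ℕ) [NeZero d] (h : N * d ∣ M) (x : JZero N) :
    degenPush d h (degenPull d h x) = finrankAlong Qb (degenIncl d h) • x :=
  push_pull _ x

theorem finrankAlong_degenIncl (d : ℕ) [NeZero d] (h : N * d ∣ M) :
    finrankAlong Qb (degenIncl d h) =
      finrankAlong Qb (heckeBetaBar Qb N d) * finrankAlong Qb (levelIncl h) :=
  finrankAlong_comp _ _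

theorem degenPull_smul (d : ℕ) [NeZero d] (h : N * d ∣ M) (σ : Qb ≃ₐ[ℚ] Qb) (x : JZero N) :
    degenPull d h (σ • x) = σ • degenPull d h x :=
  pull_smul (isDegen_degenIncl d h) σ x

theorem degenPush_smul (d : ℕ) [NeZero d] (h : N * d ∣ M) (σ : Qb ≃ₐ[ℚ] Qb) (y : JZero M) :
    degenPush d h (σ • y) = σ • degenPush d h y :=
  push_smul (isDegen_degenIncl d h) σ y

theorem degenPull_eq_zero_of_coprime (d : ℕ) [NeZero d] (h : N * d ∣ M) (m : ℕ)
    (hm : Nat.Coprime m (finrankAlong Qb (degenIncl d h))) (x : JZero N) (hmx : m • x = 0)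
    (hx : degenPull d h x = 0) : x = 0 :=
  pull_eq_zero_of_coprime _ m hm x hmx hx

variable {ℓ : ℕ} [NeZero ℓ]

/-- **`B_d^* ∘ T_ℓ^{(N)} = T_ℓ^{(M)} ∘ B_d^*`** (`ℓ ∤ M` prime). -/
theorem degenPull_heckeOperatorAlong (d : ℕ) [NeZero d] (h : N * d ∣ M) (hℓ : ℓ.Prime)
    (hℓM : ¬ ℓ ∣ M) (x : JZero N) :
    degenPull d h (heckeOperatorAlong Qb N ℓ x) = heckeOperatorAlong Qb M ℓ (degenPull d h x) :=
  pull_heckeOperatorAlong' h hℓ hℓM (isDegen_degenIncl d h) x

/-- `heckeOperatorBar` form. -/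
theorem degenPull_heckeOperatorBar (d : ℕ) [NeZero d] (h : N * d ∣ M) (ℓ : Nat.Primes)
    (hℓM : ¬ (ℓ : ℕ) ∣ M) (x : JZero N) :
    degenPull d h (heckeOperatorBar N ℓ x) = heckeOperatorBar M ℓ (degenPull d h x) := by
  haveI : NeZero (ℓ : ℕ) := ⟨ℓ.2.ne_zero⟩
  rw [heckeOperatorBar_apply, heckeOperatorBar_apply]
  exact degenPull_heckeOperatorAlong d h ℓ.2 hℓM x

theorem mul_mul_dvd {d : ℕ} (h : N * d ∣ M) (q : ℕ) : N * q * d ∣ M * q := by
  rw [mul_right_comm]
  exact mul_dvd_mul_right h q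

variable {q : ℕ} [NeZero q]

/-- **`B_d^* ∘ α_{q*} = α_{q*} ∘ B_d^*`** (`q ∤ M` prime). -/
theorem degenPull_alphaPush (d : ℕ) [NeZero d] (h : N * d ∣ M) (hq : q.Prime) (hqM : ¬ q ∣ M)
    (y : JZero (N * q)) :
    degenPull d h (alphaPush hq (fun h' => hqM (h'.trans ((dvd_mul_right N d).trans h))) y) =
      alphaPush hq hqM (degenPull d (mul_mul_dvd h q) y) :=
  pull_push_alpha ((dvd_mul_left d N).trans h) hq
    (fun h' => hqM (h'.trans ((dvd_mul_right N d).trans h))) hqM (isDegen_degenIncl d h)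
    (isDegen_degenIncl d (mul_mul_dvd h q)) y

/-- **`B_d^* ∘ β_{q*} = β_{q*} ∘ B_d^*`** (`q ∤ M` prime). -/
theorem degenPull_betaPush (d : ℕ) [NeZero d] (h : N * d ∣ M) (hq : q.Prime) (hqM : ¬ q ∣ M)
    (y : JZero (N * q)) :
    degenPull d h (betaPush hq (fun h' => hqM (h'.trans ((dvd_mul_right N d).trans h))) y) =
      betaPush hq hqM (degenPull d (mul_mul_dvd h q) y) :=
  pull_push_beta ((dvd_mul_left d N).trans h) hq
    (fun h' => hqM (h'.trans ((dvd_mul_right N d).trans h))) hqM (isDegen_degenIncl d h)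
    (isDegen_degenIncl d (mul_mul_dvd h q)) y

end DegenPull

end Fermat.Agent.M1.Lvl.LevelOps47
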