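/-
M1 (S44), chapter LVL, helper47: **generic push/pull calculus on divisors** (Prelude + Mathlib only).

For a finite extension `F ⊆ F'` of function fields over `K` all of whose places have degree one
(`K` algebraically closed):

* `pushforward_pullback`: `π_* π^* D = [F' : F] • D` (from the fundamental identity);
* `pushforward_pushforward`: functoriality of the push-forward in a tower `F ⊆ F₁ ⊆ G₁`;
* the `Along` forms `pushforwardAlong_pullbackAlong`, `pushforwardAlong_comp`.
-/
import Mathlib
import Fermat.Prelude.Def_AlgebraicCurve_Correspondence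

set_option autoImplicit false
set_option linter.style.haveILetI false

noncomputable section

open AlgebraicCurve

namespace Fermat.Agent.M1.Lvl.PushPull47

/-! ### One extension -/

section One

variable {K F F' : Type*} [Field K] [Field F] [Field F']
  [Algebra K F] [Algebra K F'] [Algebra F F'] [IsScalarTower K F F']
  [Algebra.IsIntegral F F']

/-- over an algebraically closed constant field all inertia degrees are one. -/
theorem inertiaDeg_eq_one (hF : ∀ v : Place K F, v.deg = 1) (hF' : ∀ w : Place K F', w.deg = 1)
    (w : Place K F') : w.inertiaDeg F = 1 := by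
  have h := w.deg_restrict_mul_inertiaDeg (F := F)
  rw [hF, hF', one_mul] at h
  exact h

theorem pushforward_single_of_deg (hF : ∀ v : Place K F, v.deg = 1)
    (hF' : ∀ w : Place K F', w.deg = 1) (w : Place K F') (n : ℤ) :
    Divisor.pushforward F (Finsupp.single w n) = Finsupp.single (w.restrict F) n := by
  rw [Divisor.pushforward_single, inertiaDeg_eq_one hF hF' w, Nat.cast_one, mul_one]

variable [HasPrincipalDivisors K F']

/-- `∑_{w ∣ v} e(w) = [F' : F]`. -/
theorem sum_ramificationIndex [FundamentalIdentity K F F']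
    (hF : ∀ v : Place K F, v.deg = 1) (hF' : ∀ w : Place K F', w.deg = 1) (v : Place K F) :
    ∑ w ∈ v.fiber F', (w.ramificationIndex F : ℤ) = (Module.finrank F F' : ℤ) := by
  have h := FundamentalIdentity.sum_ramificationIndex_mul_deg (K := K) (F := F) (F' := F') v
  rw [hF v, Nat.cast_one, mul_one] at h
  rw [← h]
  refine Finset.sum_congr rfl fun w _ => ?_
  rw [hF' w, Nat.cast_one, mul_one]

/-- **`π_* π^* = deg`** on divisors. -/
theorem pushforward_pullback [FundamentalIdentity K F F']
    (hF : ∀ v : Place K F, v.deg = 1) (hF' : ∀ w : Place K F', w.deg = 1) (D : Divisor K F) :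
    Divisor.pushforward F (Divisor.pullback F' D) = Module.finrank F F' • D := by
  induction D using Finsupp.induction with
  | zero => simp
  | single_add v n D _ _ ih =>
    rw [map_add, map_add, ih, smul_add]
    congr 1
    rw [Divisor.pullback_single, map_sum]
    have h1 : ∀ w ∈ v.fiber F',
        Divisor.pushforward F (Finsupp.single w (n * (w.ramificationIndex F : ℤ))) =
          Finsupp.single v (n * (w.ramificationIndex F : ℤ)) := by
      intro w hw
      rw [pushforward_single_of_deg hF hF', Place.mem_fiber.mp hw]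
    rw [Finset.sum_congr rfl h1]
    have h2 : ∑ w ∈ v.fiber F', (Finsupp.single v (n * (w.ramificationIndex F : ℤ)) :
        Divisor K F) = Finsupp.single v (∑ w ∈ v.fiber F', n * (w.ramificationIndex F : ℤ)) := by
      rw [Finsupp.single_finsetSum]
    rw [h2, ← Finset.mul_sum, sum_ramificationIndex hF hF' v, Finsupp.smul_single, nsmul_eq_mul,
      mul_comm]

end One

/-! ### Towers -/

section Tower

variable {K F F₁ G₁ : Type*} [Field K] [Field F] [Field F₁] [Field G₁]
  [Algebra K F] [Algebra K F₁] [Algebra K G₁]
  [Algebra F F₁] [Algebra F₁ G₁] [Algebra F G₁]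
  [IsScalarTower K F F₁] [IsScalarTower K F₁ G₁] [IsScalarTower K F G₁]
  [IsScalarTower F F₁ G₁]
  [Algebra.IsIntegral F F₁] [Algebra.IsIntegral F₁ G₁] [Algebra.IsIntegral F G₁]

/-- restriction of places is functorial. -/
theorem restrict_restrict' (w : Place K G₁) : (w.restrict F₁).restrict F = w.restrict F := by
  apply Place.ext
  ext f
  show algebraMap F₁ G₁ (algebraMap F F₁ f) ∈ w.toValuationSubring ↔
    algebraMap F G₁ f ∈ w.toValuationSubring
  rw [← IsScalarTower.algebraMap_apply]

/-- **functoriality of the push-forward.** -/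
theorem pushforward_pushforward (hF : ∀ v : Place K F, v.deg = 1)
    (hF₁ : ∀ v : Place K F₁, v.deg = 1) (hG₁ : ∀ w : Place K G₁, w.deg = 1)
    (D : Divisor K G₁) :
    Divisor.pushforward F (Divisor.pushforward F₁ D) = Divisor.pushforward F D := by
  induction D using Finsupp.induction with
  | zero => simp
  | single_add w n D _ _ ih =>
    rw [map_add, map_add, map_add, ih]
    congr 1
    rw [pushforward_single_of_deg hF₁ hG₁, pushforward_single_of_deg hF hF₁,
      pushforward_single_of_deg hF hG₁, restrict_restrict']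

end Tower

/-! ### `Along` forms -/

section Along

variable {K F F₁ G₁ : Type*} [Field K] [Field F] [Field F₁] [Field G₁]
  [Algebra K F] [Algebra K F₁] [Algebra K G₁]

/-- **`φ_* φ^* = deg φ`**, `Along` form. -/
theorem pushforwardAlong_pullbackAlong [HasPrincipalDivisors K F₁] (φ : F →ₐ[K] F₁)
    (hφ : φ.toRingHom.IsIntegral) (hFI : FundamentalIdentityAlong K φ hφ)
    (hF : ∀ v : Place K F, v.deg = 1) (hF₁ : ∀ w : Place K F₁, w.deg = 1) (D : Divisor K F) :
    Divisor.pushforwardAlong φ hφ (Divisor.pullbackAlong φ hφ D) = finrankAlong K φ • D := by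
  letI := algebraAlong φ
  haveI := isScalarTower_along φ
  haveI := isIntegral_along φ hφ
  haveI : FundamentalIdentity K F F₁ := hFI
  exact pushforward_pullback hF hF₁ D

/-- **functoriality of the push-forward**, `Along` form. -/
theorem pushforwardAlong_comp (φ : F →ₐ[K] F₁) (ψ : F₁ →ₐ[K] G₁)
    (hφ : φ.toRingHom.IsIntegral) (hψ : ψ.toRingHom.IsIntegral)
    (hψφ : (ψ.comp φ).toRingHom.IsIntegral)
    (hF : ∀ v : Place K F, v.deg = 1) (hF₁ : ∀ v : Place K F₁, v.deg = 1)
    (hG₁ : ∀ w : Place K G₁, w.deg = 1) (D : Divisor K G₁) :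
    Divisor.pushforwardAlong (ψ.comp φ) hψφ D =
      Divisor.pushforwardAlong φ hφ (Divisor.pushforwardAlong ψ hψ D) := by
  letI := algebraAlong φ
  letI := algebraAlong ψ
  letI := algebraAlong (ψ.comp φ)
  haveI := isScalarTower_along φ
  haveI := isScalarTower_along ψ
  haveI := isScalarTower_along (ψ.comp φ)
  haveI := isIntegral_along φ hφ
  haveI := isIntegral_along ψ hψ
  haveI := isIntegral_along (ψ.comp φ) hψφ
  haveI : IsScalarTower F F₁ G₁ := IsScalarTower.of_algebraMap_eq (fun _ => rfl)
  exact (pushforward_pushforward (F := F) (F₁ := F₁) (G₁ := G₁) hF hF₁ hG₁ D).symm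

/-- push-forward along equal maps. -/
theorem pushforwardAlong_congr {φ φ' : F →ₐ[K] F₁} (h : φ = φ') (hφ : φ.toRingHom.IsIntegral)
    (hφ' : φ'.toRingHom.IsIntegral) (D : Divisor K F₁) :
    Divisor.pushforwardAlong φ hφ D = Divisor.pushforwardAlong φ' hφ' D := by
  subst h
  rfl

/-- pull-back along equal maps. -/
theorem pullbackAlong_congr [HasPrincipalDivisors K F₁] {φ φ' : F →ₐ[K] F₁} (h : φ = φ')
    (hφ : φ.toRingHom.IsIntegral) (hφ' : φ'.toRingHom.IsIntegral) (D : Divisor K F) :
    Divisor.pullbackAlong φ hφ D = Divisor.pullbackAlong φ' hφ' D := by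
  subst h
  rfl

end Along

end Fermat.Agent.M1.Lvl.PushPull47
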