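/-
M1 (S44), chapter LVL, helper47: **the push-forward `π_* : J₀(M) → J₀(N)` along a level inclusion
`N ∣ M`** (companion of `ES/HECKE/LevelPullback12.levelPullback`).

* `levelPushDiv h`, `levelPush h : JZero M →+ JZero N`;
* `levelPushDiv_levelPullbackDiv`, `levelPush_levelPullback`: `π_* π^* = [Fbar M : Fbar N]`;
* `levelPush_smul`: `π_*` is `Gal(ℚ̄/ℚ)`-equivariant;
* `levelPullback_eq_zero_of_coprime`: `π^*` is injective on `m`-torsion when `m` is prime to the
  degree (elementary alternative to the root-descent route).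
-/
import Mathlib
import Fermat.Agent.ES.N35.TateFrob12
import Fermat.Agent.ES.HECKE.LevelPullback12
import Fermat.Agent.ES.RED.PullbackInj12
import Fermat.Agent.M1.Lvl.PushPull47

set_option autoImplicit false
set_option synthInstance.maxHeartbeats 400000
set_option linter.unusedSectionVars false
set_option linter.style.haveILetI false

noncomputable section

open AlgebraicCurve ModularCurve

namespace Fermat.Agent.M1.Lvl.LevelPush47

open Fermat.Agent.ES.HECKE.LevelPullback12 Fermat.Agent.ES.N35.PushO12
open Fermat.Agent.RED.TOP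

local notation "Qb" => AlgebraicClosure ℚ

variable {N M : ℕ} [NeZero N] [NeZero M]

/-- the norm formula along a level inclusion. -/
theorem levelIncl_normFormulaAlong (h : N ∣ M) :
    NormFormulaAlong Qb (levelIncl h) (levelIncl_finiteAlong h) :=
  Fermat.Agent.ES.HECKE.NormFormula15.normFormulaAlong_of_isGen (levelIncl h)
    (levelIncl_finiteAlong h) (FbarFacts20.isGen_j M)

/-- `π_*` on divisors. -/
def levelPushDiv (h : N ∣ M) :
    Divisor Qb (modularFunctionFieldBar M) →+ Divisor Qb (modularFunctionFieldBar N) :=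
  Divisor.pushforwardAlong (levelIncl h) (levelIncl_isIntegral h)

/-- **`π_* : JZero M →+ JZero N`** for `N ∣ M`. -/
def levelPush (h : N ∣ M) : JZero M →+ JZero N :=
  pic0PushAlong (levelIncl h) (levelIncl_isIntegral h) (levelIncl_finiteAlong h)
    (levelIncl_normFormulaAlong h)

theorem levelPush_mk (h : N ∣ M)
    (D : Divisor.degZero (K := Qb) (F := modularFunctionFieldBar M)) :
    levelPush h (Pic0.mk D) =
      Pic0.mk (degZeroPushAlong (levelIncl h) (levelIncl_isIntegral h) D) :=
  rfl

/-- **`π_* π^* = deg π`** on divisors. -/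
theorem levelPushDiv_levelPullbackDiv (h : N ∣ M)
    (D : Divisor Qb (modularFunctionFieldBar N)) :
    levelPushDiv h (levelPullbackDiv h D) = finrankAlong Qb (levelIncl h) • D :=
  haveI := FbarFacts20.hasPrincipalDivisors_bar M
  PushPull47.pushforwardAlong_pullbackAlong (levelIncl h) (levelIncl_isIntegral h)
    (levelIncl_fundamentalIdentityAlong h) (FbarFacts20.deg_eq_one_bar N)
    (FbarFacts20.deg_eq_one_bar M) D

/-- **`π_* π^* = deg π`** on `J₀`. -/
theorem levelPush_levelPullback (h : N ∣ M) (x : JZero N) :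
    levelPush h (levelPullback h x) = finrankAlong Qb (levelIncl h) • x := by
  obtain ⟨D, rfl⟩ := Pic0.mk_surjective x
  rw [levelPullback_mk, levelPush_mk]
  have h1 : (finrankAlong Qb (levelIncl h) • Pic0.mk D : JZero N) =
      Pic0.mk (finrankAlong Qb (levelIncl h) • D) := rfl
  rw [h1]
  refine congrArg Pic0.mk (Subtype.ext ?_)
  rw [coe_degZeroPushAlong]
  exact levelPushDiv_levelPullbackDiv h (D : Divisor Qb (modularFunctionFieldBar N))

/-- **`π_*` is `Gal(ℚ̄/ℚ)`-equivariant.** -/
theorem levelPush_smul (h : N ∣ M) (σ : Qb ≃ₐ[ℚ] Qb) (y : JZero M) :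
    levelPush h (σ • y) = σ • levelPush h y := by
  haveI : HasPrincipalDivisors Qb (modularFunctionFieldBar M) :=
    FbarFacts20.hasPrincipalDivisors_bar M
  rw [galois_smul_pic0_def, galois_smul_pic0_def]
  exact Fermat.Agent.ES.N35.TateFrob12.pic0PushAlong_smul (levelIncl h) _ _ _
    (arithmeticGalois (modularFunctionFieldFull N) σ)
    (arithmeticGalois (modularFunctionFieldFull M) σ)
    (Fermat.Agent.ES.RED.PullbackInj12.levelIncl_arithmeticGalois_smul h σ)
    (fun w => Fermat.Agent.ES.HECKE.FundId12.inertiaDegAlong_eq_one (levelIncl h) _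
      (levelIncl_finiteAlong h) (FbarFacts20.isGen_j N) w) y

/-- `π^*` is injective on `m`-torsion when `m` is prime to the degree of `π`. -/
theorem levelPullback_eq_zero_of_coprime (h : N ∣ M) (m : ℕ)
    (hm : Nat.Coprime m (finrankAlong Qb (levelIncl h))) (x : JZero N) (hmx : m • x = 0)
    (hx : levelPullback h x = 0) : x = 0 := by
  have h1 : finrankAlong Qb (levelIncl h) • x = 0 := by
    rw [← levelPush_levelPullback h x, hx, map_zero]
  have h2 : addOrderOf x ∣ m := addOrderOf_dvd_of_nsmul_eq_zero hmx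
  have h3 : addOrderOf x ∣ finrankAlong Qb (levelIncl h) := addOrderOf_dvd_of_nsmul_eq_zero h1
  have h4 : addOrderOf x ∣ 1 := by
    rw [← Nat.Coprime.gcd_eq_one hm]
    exact Nat.dvd_gcd h2 h3
  exact AddMonoid.addOrderOf_eq_one_iff.mp (Nat.dvd_one.mp h4)

end Fermat.Agent.M1.Lvl.LevelPush47
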